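import Mathlib
import Fermat.Prelude.Def_ModularCurve_GenusNumerics
import Fermat.Agent.S20.Comb482Psi

/-!
# S36 leaf GEN (arithmetic part): genus numerics at a rigid level

For a prime `q ∤ M₁` and a level `M₁` divisible by a prime `r ≡ 11 (mod 12)`:

* `cuspCount (M₁ * q) = 2 * cuspCount M₁`,
* `nuTwo N = 0` as soon as a prime `r ≡ 3 (mod 4)` divides `N`,
* `nuThree N = 0` as soon as a prime `r ≡ 2 (mod 3)` divides `N`,
* `genusFormula (q * M₁) - 2 * genusFormula M₁ + 1 = (q - 1) * dedekindPsi M₁ / 12`.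

Everything is elementary; the only inputs are Mathlib and the recursion for `dedekindPsi`.
-/

set_option autoImplicit false

namespace Fermat.Agent.S36.H29

open ModularCurve

/-! ### `cuspCount` doubles at a new prime -/

theorem divisors_mul_prime_of_not_dvd {M q : ℕ} (hM : M ≠ 0) (hq : q.Prime) (_hqM : ¬ q ∣ M) :
    (M * q).divisors = M.divisors ∪ M.divisors.image (· * q) := by
  ext d
  simp only [Nat.mem_divisors, Finset.mem_union, Finset.mem_image]
  constructor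
  · rintro ⟨hd, -⟩
    by_cases hqd : q ∣ d
    · right
      obtain ⟨d', rfl⟩ := hqd
      refine ⟨d', ⟨?_, hM⟩, mul_comm _ _⟩
      rw [mul_comm M q] at hd
      exact Nat.dvd_of_mul_dvd_mul_left hq.pos hd
    · left
      refine ⟨?_, hM⟩
      have hcop : Nat.Coprime d q := ((Nat.Prime.coprime_iff_not_dvd hq).mpr hqd).symm
      exact hcop.dvd_of_dvd_mul_right hd
  · rintro (⟨hd, -⟩ | ⟨d', ⟨hd, -⟩, rfl⟩)
    · exact ⟨hd.mul_right q, mul_ne_zero hM hq.ne_zero⟩
    · exact ⟨Nat.mul_dvd_mul_right hd q, mul_ne_zero hM hq.ne_zero⟩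

theorem cuspCount_mul_prime_of_not_dvd {M q : ℕ} (hM : M ≠ 0) (hq : q.Prime) (hqM : ¬ q ∣ M) :
    cuspCount (M * q) = 2 * cuspCount M := by
  unfold cuspCount
  have hdisj : Disjoint M.divisors (M.divisors.image (· * q)) := by
    rw [Finset.disjoint_left]
    intro d hd hd'
    simp only [Nat.mem_divisors, Finset.mem_image] at hd hd'
    obtain ⟨d', -, rfl⟩ := hd'
    exact hqM ((dvd_mul_left q d').trans hd.1)
  rw [divisors_mul_prime_of_not_dvd hM hq hqM, Finset.sum_union hdisj, Finset.sum_image, two_mul]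
  · congr 1
    · refine Finset.sum_congr rfl fun d hd => ?_
      simp only [Nat.mem_divisors] at hd
      have hcop : Nat.Coprime d q :=
        ((Nat.Prime.coprime_iff_not_dvd hq).mpr fun h => hqM (h.trans hd.1)).symm
      rw [mul_comm M q, Nat.mul_div_assoc q hd.1, mul_comm q (M / d)]
      exact congrArg _ (Nat.Coprime.gcd_mul_right_cancel_right (M / d) hcop.symm)
    · refine Finset.sum_congr rfl fun d hd => ?_
      simp only [Nat.mem_divisors] at hd
      have hcop : Nat.Coprime q (M / d) :=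
        (Nat.Prime.coprime_iff_not_dvd hq).mpr fun h => hqM (h.trans (Nat.div_dvd_of_dvd hd.1))
      rw [Nat.mul_div_mul_right _ _ hq.pos]
      exact congrArg _ (Nat.Coprime.gcd_mul_right_cancel d hcop)
  · intro x _ y _ hxy
    exact Nat.eq_of_mul_eq_mul_right hq.pos hxy

/-! ### No elliptic points at a rigid level -/

theorem no_root_sq_add_one {r : ℕ} (hr : r.Prime) (hr4 : r % 4 = 3) (y : ZMod r) :
    y ^ 2 + 1 ≠ 0 := by
  haveI : Fact r.Prime := ⟨hr⟩
  intro hy2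
  have hsq : IsSquare (-1 : ZMod r) := ⟨y, by linear_combination -hy2⟩
  exact (ZMod.exists_sq_eq_neg_one_iff.mp hsq) hr4

theorem no_root_sq_add_self_add_one {r : ℕ} (hr : r.Prime) (hr3 : r % 3 = 2) (y : ZMod r) :
    y ^ 2 + y + 1 ≠ 0 := by
  haveI : Fact r.Prime := ⟨hr⟩
  intro hy2
  have hy3 : y ^ 3 = 1 := by linear_combination (y - 1) * hy2
  have hy1 : y ≠ 1 := by
    intro h1
    rw [h1] at hy2
    have h3 : ((3 : ℕ) : ZMod r) = 0 := by
      push_cast
      linear_combination hy2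
    have hdvd : r ∣ 3 := (ZMod.natCast_eq_zero_iff 3 r).mp h3
    have : r = 3 := (Nat.prime_dvd_prime_iff_eq hr Nat.prime_three).mp hdvd
    omega
  have hy0 : y ≠ 0 := by
    intro h0
    rw [h0] at hy3
    simp at hy3
  haveI : Fact (Nat.Prime 3) := ⟨Nat.prime_three⟩
  have hord : orderOf y = 3 := orderOf_eq_prime hy3 hy1
  have hpow : y ^ (r - 1) = 1 := ZMod.pow_card_sub_one_eq_one hy0
  have hdvd : 3 ∣ r - 1 := hord ▸ orderOf_dvd_of_pow_eq_one hpow
  have hrpos := hr.pos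
  omega

theorem nuTwo_eq_zero_of_prime_dvd {N r : ℕ} (hr : r.Prime) (hr4 : r % 4 = 3) (hrN : r ∣ N) :
    nuTwo N = 0 := by
  unfold nuTwo
  have hempty : IsEmpty {x : ZMod N // x ^ 2 + 1 = 0} := by
    refine ⟨fun ⟨x, hx⟩ => ?_⟩
    refine no_root_sq_add_one hr hr4 (ZMod.castHom hrN (ZMod r) x) ?_
    have := congrArg (ZMod.castHom hrN (ZMod r)) hx
    simpa only [map_add, map_pow, map_one, map_zero] using this
  exact Nat.card_of_isEmpty

theorem nuThree_eq_zero_of_prime_dvd {N r : ℕ} (hr : r.Prime) (hr3 : r % 3 = 2) (hrN : r ∣ N) :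
    nuThree N = 0 := by
  unfold nuThree
  have hempty : IsEmpty {x : ZMod N // x ^ 2 + x + 1 = 0} := by
    refine ⟨fun ⟨x, hx⟩ => ?_⟩
    refine no_root_sq_add_self_add_one hr hr3 (ZMod.castHom hrN (ZMod r) x) ?_
    have := congrArg (ZMod.castHom hrN (ZMod r)) hx
    simpa only [map_add, map_pow, map_one, map_zero] using this
  exact Nat.card_of_isEmpty

/-! ### The genus identity -/

/-- `ψ(q M₁) = (q + 1) ψ(M₁)` for a prime `q ∤ M₁`. -/
theorem dedekindPsi_prime_mul {M q : ℕ} (hM : M ≠ 0) (hq : q.Prime) (hqM : ¬ q ∣ M) :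
    dedekindPsi (q * M) = (q + 1) * dedekindPsi M := by
  rw [mul_comm q M]
  exact Fermat.Agent.S20.Comb482.dedekindPsi_mul_prime_of_not_dvd hM hq hqM

/-- `ν_∞(q M₁) = 2 ν_∞(M₁)` for a prime `q ∤ M₁`. -/
theorem cuspCount_prime_mul {M q : ℕ} (hM : M ≠ 0) (hq : q.Prime) (hqM : ¬ q ∣ M) :
    cuspCount (q * M) = 2 * cuspCount M := by
  rw [mul_comm q M]
  exact cuspCount_mul_prime_of_not_dvd hM hq hqM

/-- The genus formula at a level without elliptic points. -/
theorem genusFormula_of_prime_dvd {N r : ℕ} (hr : r.Prime) (hr12 : r % 12 = 11) (hrN : r ∣ N) :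
    genusFormula N = 1 + (dedekindPsi N : ℚ) / 12 - (cuspCount N : ℚ) / 2 := by
  have h2 : nuTwo N = 0 := nuTwo_eq_zero_of_prime_dvd hr (by omega) hrN
  have h3 : nuThree N = 0 := nuThree_eq_zero_of_prime_dvd hr (by omega) hrN
  unfold genusFormula
  rw [h2, h3]
  simp

/-- **GEN (arithmetic)**: at a rigid level `M₁` (divisible by a prime `r ≡ 11 mod 12`) and a
prime `q ∤ M₁`,  `g(q M₁) - 2 g(M₁) + 1 = (q - 1) ψ(M₁) / 12`. -/
theorem genusFormula_rigid {M q r : ℕ} (hM : M ≠ 0) (hq : q.Prime) (hqM : ¬ q ∣ M)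
    (hr : r.Prime) (hr12 : r % 12 = 11) (hrM : r ∣ M) :
    genusFormula (q * M) - 2 * genusFormula M + 1 = ((q : ℚ) - 1) * (dedekindPsi M : ℚ) / 12 := by
  rw [genusFormula_of_prime_dvd hr hr12 (hrM.mul_left q), genusFormula_of_prime_dvd hr hr12 hrM,
    dedekindPsi_prime_mul hM hq hqM, cuspCount_prime_mul hM hq hqM]
  push_cast
  ring

/-- Integer form: any natural numbers `g, g₀` with `(g : ℚ) = genusFormula (q M₁)` and
`(g₀ : ℚ) = genusFormula M₁` satisfy `12 * (g + 1) = (q - 1) * ψ(M₁) + 24 * g₀`. -/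
theorem genus_rigid_nat {M q r g g₀ : ℕ} (hM : M ≠ 0) (hq : q.Prime) (hqM : ¬ q ∣ M)
    (hr : r.Prime) (hr12 : r % 12 = 11) (hrM : r ∣ M)
    (hg : (g : ℚ) = genusFormula (q * M)) (hg₀ : (g₀ : ℚ) = genusFormula M) :
    12 * (g + 1) = (q - 1) * dedekindPsi M + 24 * g₀ := by
  have h := genusFormula_rigid hM hq hqM hr hr12 hrM
  rw [← hg, ← hg₀] at h
  have hq1 : 1 ≤ q := hq.pos
  have hQ : ((12 * (g + 1) : ℕ) : ℚ) = (((q - 1) * dedekindPsi M + 24 * g₀ : ℕ) : ℚ) := by
    push_cast [Nat.cast_sub hq1]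
    linarith
  exact_mod_cast hQ

/-- Squeeze form used by THICK1: if the number `s` of nodes satisfies
`(q - 1) ψ(M₁) ≤ 12 s` (mass formula, all thicknesses `≥ 1`) and `s + 2 g₀ ≤ g + 1` (genus upper
bound), then `12 * s = (q - 1) * ψ(M₁)`. -/
theorem nodes_squeeze {M q r g g₀ s : ℕ} (hM : M ≠ 0) (hq : q.Prime) (hqM : ¬ q ∣ M)
    (hr : r.Prime) (hr12 : r % 12 = 11) (hrM : r ∣ M)
    (hg : (g : ℚ) = genusFormula (q * M)) (hg₀ : (g₀ : ℚ) = genusFormula M)
    (hmass : (q - 1) * dedekindPsi M ≤ 12 * s) (hub : s + 2 * g₀ ≤ g + 1) :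
    12 * s = (q - 1) * dedekindPsi M := by
  have h := genus_rigid_nat hM hq hqM hr hr12 hrM hg hg₀
  omega

end Fermat.Agent.S36.H29
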